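import Mathlib
import Fermat.Agent.S26.H266.Dict

/-!
# Row S27, block GRP, leaf BRIDGE (helper266), part 2: frames and addition of classes

If `L`, `L'`, `L''` have frames on the same opens `U x ∋ x` with transition functions `g`, `g'`
and `g * g'`, then `[L''] = [L] + [L']` in the Čech Picard group.

* `frameCocycle` : the cocycle of a frame indexed by the points;
* `class_add_of_frames` : the statement above.
-/

set_option autoImplicit false

universe u

open CategoryTheory AlgebraicGeometry TopologicalSpace Opposite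

namespace Fermat.Agent.S27.H266

open Fermat.Agent.S25 Fermat.Agent.S26 Fermat.Agent.S26.H266
open Fermat.Agent.S25.H626 (res resO res_res res_smul res_add resO_resO resO_mul resO_one
  IsLocalGenerator)

noncomputable section

variable {X : Scheme.{u}}

/-- The cocycle of a frame indexed by the points of `X`. -/
def frameCocycle {L : X.Modules} {U : X → X.Opens} (hU : ∀ x, x ∈ U x)
    {g : ∀ x y, Γ(X, U x ⊓ U y)} {s : ∀ x, Γ(L, U x)} (hs : IsFrame L U g s) :
    Pic.Cocycle X where
  U := U
  mem := hU
  g := fun x y => (hs.isUnit_g x y).unit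
  cocycle := fun x y z => by
    apply Units.ext
    exact hs.cocycle_on x y z (inf_le_left.trans inf_le_left)
      (inf_le_left.trans inf_le_right) inf_le_right

theorem realizes_frameCocycle {L : X.Modules} {U : X → X.Opens} (hU : ∀ x, x ∈ U x)
    {g : ∀ x y, Γ(X, U x ⊓ U y)} {s : ∀ x, Γ(L, U x)} (hs : IsFrame L U g s) :
    Realizes L (frameCocycle hU hs) :=
  ⟨s, ⟨hs.gen, fun x y => hs.trans x y⟩⟩

/-- **Frames with multiplied transition functions realize the product cocycle.** -/
theorem realizes_mul_of_frames {L L' L'' : X.Modules} {U : X → X.Opens} (hU : ∀ x, x ∈ U x)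
    {g g' : ∀ x y, Γ(X, U x ⊓ U y)} {s : ∀ x, Γ(L, U x)} {s' : ∀ x, Γ(L', U x)}
    {s'' : ∀ x, Γ(L'', U x)} (hs : IsFrame L U g s) (hs' : IsFrame L' U g' s')
    (hs'' : IsFrame L'' U (fun x y => g x y * g' x y) s'') :
    Realizes L'' ((frameCocycle hU hs).mul (frameCocycle hU hs')) := by
  refine ⟨fun x => res L'' (inf_le_left : U x ⊓ U x ≤ U x) (s'' x), ⟨fun x => ?_, fun x y => ?_⟩⟩
  · exact H146.isLocalGenerator_res (hs''.gen x) _
  · rw [res_res, res_res]
    have h1 := hs''.trans_on x y
      (W := (U x ⊓ U x) ⊓ (U y ⊓ U y))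
      (inf_le_left.trans inf_le_left) (inf_le_right.trans inf_le_left)
    refine h1.trans ?_
    congr 1
    simp only [resO_mul]
    rfl

/-- **Addition of classes from frames.** -/
theorem class_add_of_frames {L L' L'' : X.Modules} {U : X → X.Opens} (hU : ∀ x, x ∈ U x)
    {g g' : ∀ x y, Γ(X, U x ⊓ U y)} {s : ∀ x, Γ(L, U x)} {s' : ∀ x, Γ(L', U x)}
    {s'' : ∀ x, Γ(L'', U x)} (hs : IsFrame L U g s) (hs' : IsFrame L' U g' s')
    (hs'' : IsFrame L'' U (fun x y => g x y * g' x y) s'')
    {a a' a'' : Pic.cechPic.Pic X} (ha : IsClassOf L a) (ha' : IsClassOf L' a')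
    (ha'' : IsClassOf L'' a'') : a'' = a + a' := by
  have h1 : IsClassOf L (Pic.cl (frameCocycle hU hs)) := (realizes_frameCocycle hU hs).isClassOf
  have h2 : IsClassOf L' (Pic.cl (frameCocycle hU hs')) :=
    (realizes_frameCocycle hU hs').isClassOf
  have h3 : IsClassOf L'' (Pic.cl ((frameCocycle hU hs).mul (frameCocycle hU hs'))) :=
    (realizes_mul_of_frames hU hs hs' hs'').isClassOf
  rw [ha''.unique h3, ha.unique h1, ha'.unique h2, Pic.cl_mul]

end

end Fermat.Agent.S27.H266
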