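import Mathlib
import Fermat.Agent.S26.H266.DictFrame
import Fermat.Agent.S26.H25.Gen
import Fermat.Agent.S25.H626.SecLoc

/-!
# Row S27, block GRP, leaf BRIDGE (helper266), part 1: pairings of sections over an affine open

Let `V` be an affine open of a scheme `X` and `M`, `M'`, `M''` modules with local generators.
A *pairing over `V`* is a biadditive map `B : Γ(M, V) → Γ(M', V) → Γ(M'', V)` which is
`Γ(X, V)`-linear in both variables.  (No tensor product of sheaves is used.)

* `SecPairing.res_left`, `res_right`, `res_both` : **localisation**: if `p|_W = a • n|_W` and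
  `p'|_W = a' • n'|_W` on an open `W ≤ V`, then `B p p'|_W = (a a') • B n n'|_W`;
* `SecPairing.isLocalGenerator` : if every section of `M''` over `V` is a sum of values of `B`
  and `n|_W`, `n'|_W` are local generators of `M`, `M'`, then `B n n'|_W` is a local generator
  of `M''`.
-/

set_option autoImplicit false

universe u

open CategoryTheory AlgebraicGeometry TopologicalSpace Opposite

namespace Fermat.Agent.S27.H266

open Fermat.Agent.S25
open Fermat.Agent.S25.H626 (res resO res_res res_smul res_add res_sub res_zero resO_resO resO_mul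
  resO_one resO_pow res_pow_smul IsLocalGenerator HasLocalGenerators)

variable {X : Scheme.{u}}

/-- A unit multiple of a local generator is a local generator. -/
theorem isLocalGenerator_smul_of_isUnit {M : X.Modules} {W : X.Opens} {t : Γ(M, W)}
    (ht : IsLocalGenerator M W t) {u : Γ(X, W)} (hu : IsUnit u) :
    IsLocalGenerator M W (u • t) := by
  intro W' hW'
  have h1 : (fun r : Γ(X, W') => r • res M hW' (u • t)) =
      (fun r : Γ(X, W') => r • res M hW' t) ∘ (fun r : Γ(X, W') => r * resO hW' u) := by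
    funext r
    simp only [Function.comp_apply]
    rw [res_smul, mul_smul]
  rw [h1]
  exact (ht W' hW').comp (H326.isUnit_resO hW' hu).unit.mulRight_bijective

/-- A pairing of sections over `V`: biadditive and bilinear over `Γ(X, V)`. -/
structure SecPairing (M M' M'' : X.Modules) (V : X.Opens) where
  /-- the pairing -/
  B : Γ(M, V) → Γ(M', V) → Γ(M'', V)
  add_left : ∀ s t s', B (s + t) s' = B s s' + B t s'
  add_right : ∀ s s' t', B s (s' + t') = B s s' + B s t'
  smul_left : ∀ (r : Γ(X, V)) s s', B (r • s) s' = r • B s s'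
  smul_right : ∀ (r : Γ(X, V)) s s', B s (r • s') = r • B s s'

namespace SecPairing

variable {M M' M'' : X.Modules} {V : X.Opens} (P : SecPairing M M' M'' V)

/-- The pairing with the variables exchanged. -/
def flip : SecPairing M' M M'' V where
  B s' s := P.B s s'
  add_left s t s' := P.add_right s' s t
  add_right s s' t' := P.add_left s' t' s
  smul_left r s s' := P.smul_right r s' s
  smul_right r s s' := P.smul_left r s' s

@[simp] theorem flip_B (s' : Γ(M', V)) (s : Γ(M, V)) : P.flip.B s' s = P.B s s' := rfl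

/-- The additive map `B(·, q)`. -/
def left (q : Γ(M', V)) : Γ(M, V) →+ Γ(M'', V) where
  toFun s := P.B s q
  map_zero' := by
    have h := P.add_left 0 0 q
    rw [add_zero] at h
    exact left_eq_add.mp h
  map_add' s t := P.add_left s t q

@[simp] theorem left_apply (q : Γ(M', V)) (s : Γ(M, V)) : P.left q s = P.B s q := rfl

theorem zero_left (q : Γ(M', V)) : P.B 0 q = 0 := (P.left q).map_zero

theorem sub_left (s t : Γ(M, V)) (q : Γ(M', V)) : P.B (s - t) q = P.B s q - P.B t q :=
  (P.left q).map_sub s t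

theorem neg_left (s : Γ(M, V)) (q : Γ(M', V)) : P.B (-s) q = -P.B s q :=
  (P.left q).map_neg s

/-- **Localisation in the first variable.** -/
theorem res_left (hM : HasLocalGenerators M) (hV : IsAffineOpen V) {W : X.Opens} (hW : W ≤ V)
    {p n : Γ(M, V)} {a : Γ(X, W)} (h : res M hW p = a • res M hW n) (q : Γ(M', V)) :
    res M'' hW (P.B p q) = a • res M'' hW (P.B n q) := by
  have hcov : ∀ x : W, ∃ f : Γ(X, V), X.basicOpen f ≤ W ∧ x.1 ∈ X.basicOpen f := fun x =>
    hV.exists_basicOpen_le (V := W) ⟨x.1, x.2⟩ (hW x.2)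
  choose f hfW hxf using hcov
  apply H626.eq_of_locally_eq_M M'' (fun x : W => X.basicOpen (f x)) W hfW
    (fun x hx => Opens.mem_iSup.mpr ⟨⟨x, hx⟩, hxf _⟩)
  intro x
  have hD : X.basicOpen (f x) ≤ W := hfW x
  have hDV : X.basicOpen (f x) ≤ V := hD.trans hW
  obtain ⟨l, b, hb⟩ := H626.exists_eq_pow_mul_O hV (f x) hDV rfl (resO hD a)
  have hp : res M hDV p = resO hD a • res M hDV n := by
    have := congrArg (res M hD) h
    rwa [res_res, res_smul, res_res] at this
  have hz : res M hDV (f x ^ l • p - b • n) = 0 := by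
    rw [res_sub, res_pow_smul, res_smul, hp, hb, smul_smul, sub_self]
  obtain ⟨N, hN⟩ := H626.exists_pow_smul_eq_zero hM hV (f x) _ hDV le_rfl hz
  have h1 : f x ^ N • (f x ^ l • P.B p q - b • P.B n q) = 0 := by
    have := congrArg (fun s => P.B s q) hN
    rwa [P.smul_left, P.sub_left, P.smul_left, P.smul_left, P.zero_left] at this
  have h2 := congrArg (res M'' hDV) h1
  rw [res_pow_smul, res_sub, res_pow_smul, res_smul, res_zero] at h2
  have hu : IsUnit (resO hDV (f x)) := X.toRingedSpace.isUnit_res_basicOpen (f x)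
  have h3 : resO hDV (f x) ^ l • res M'' hDV (P.B p q) -
      resO hDV b • res M'' hDV (P.B n q) = 0 := ((hu.pow N).smul_eq_zero).mp h2
  rw [sub_eq_zero, hb, mul_smul] at h3
  have h4 := (hu.pow l).smul_left_cancel.mp h3
  rw [res_res, res_smul, res_res]
  exact h4

/-- **Localisation in the second variable.** -/
theorem res_right (hM' : HasLocalGenerators M') (hV : IsAffineOpen V) {W : X.Opens}
    (hW : W ≤ V) {p' n' : Γ(M', V)} {a' : Γ(X, W)} (h : res M' hW p' = a' • res M' hW n')
    (q : Γ(M, V)) :
    res M'' hW (P.B q p') = a' • res M'' hW (P.B q n') :=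
  P.flip.res_left hM' hV hW h q

/-- **Localisation in both variables.** -/
theorem res_both (hM : HasLocalGenerators M) (hM' : HasLocalGenerators M')
    (hV : IsAffineOpen V) {W : X.Opens} (hW : W ≤ V) {p n : Γ(M, V)} {p' n' : Γ(M', V)}
    {a a' : Γ(X, W)} (h : res M hW p = a • res M hW n)
    (h' : res M' hW p' = a' • res M' hW n') :
    res M'' hW (P.B p p') = (a * a') • res M'' hW (P.B n n') := by
  rw [P.res_left hM hV hW h p', P.res_right hM' hV hW h' n, mul_smul]

/-- Every section of `M''` over `V` is a sum of values of the pairing. -/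
def IsSurj : Prop :=
  ∀ m : Γ(M'', V), m ∈ AddSubgroup.closure {m : Γ(M'', V) | ∃ p p', P.B p p' = m}

/-- **The pairing of two local generators is a local generator.** -/
theorem isLocalGenerator (hM : HasLocalGenerators M) (hM' : HasLocalGenerators M')
    (hM'' : HasLocalGenerators M'') (hV : IsAffineOpen V) (hP : P.IsSurj) {W : X.Opens}
    (hW : W ≤ V) {n : Γ(M, V)} {n' : Γ(M', V)} (hn : IsLocalGenerator M W (res M hW n))
    (hn' : IsLocalGenerator M' W (res M' hW n')) :
    IsLocalGenerator M'' W (res M'' hW (P.B n n')) := by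
  have hcov : ∀ x : W, ∃ f : Γ(X, V), x.1 ∈ X.basicOpen f ∧ X.basicOpen f ≤ W ∧
      ∃ t : Γ(M'', X.basicOpen f), IsLocalGenerator M'' (X.basicOpen f) t := by
    intro x
    obtain ⟨U, hxU, t, ht⟩ := hM'' x.1
    obtain ⟨f, hle, hx⟩ := hV.exists_basicOpen_le (V := W ⊓ U) ⟨x.1, x.2, hxU⟩ (hW x.2)
    exact ⟨f, hx, hle.trans inf_le_left, res M'' (hle.trans inf_le_right) t,
      H146.isLocalGenerator_res ht _⟩
  choose f hxf hfW t ht using hcov
  refine S26.H25.isLocalGenerator_of_locally _ (fun x : W => X.basicOpen (f x)) hfW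
    (fun x hx => Opens.mem_iSup.mpr ⟨⟨x, hx⟩, hxf _⟩) (fun x => ?_)
  have hD : X.basicOpen (f x) ≤ W := hfW x
  have hDV : X.basicOpen (f x) ≤ V := hD.trans hW
  rw [res_res]
  -- the coefficient of `B n n'` with respect to `t`
  obtain ⟨u, hu⟩ := (H146.bijective_smul_of_isLocalGenerator (ht x)).2 (res M'' hDV (P.B n n'))
  simp only at hu
  -- `t` extends after multiplication by a power of `f`
  obtain ⟨j, m, hm⟩ := H626.exists_res_eq_pow_smul hM'' hV (f x) hDV rfl (t x)
  -- every section over `V` restricts to a multiple of `B n n'`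
  have hgenD : IsLocalGenerator M (X.basicOpen (f x)) (res M hDV n) := by
    have := H146.isLocalGenerator_res hn hD
    rwa [res_res] at this
  have hgenD' : IsLocalGenerator M' (X.basicOpen (f x)) (res M' hDV n') := by
    have := H146.isLocalGenerator_res hn' hD
    rwa [res_res] at this
  have hall : ∀ m : Γ(M'', V), ∃ v : Γ(X, X.basicOpen (f x)),
      res M'' hDV m = v • res M'' hDV (P.B n n') := by
    intro m
    refine AddSubgroup.closure_induction (p := fun m _ => ∃ v : Γ(X, X.basicOpen (f x)),
      res M'' hDV m = v • res M'' hDV (P.B n n')) ?_ ?_ ?_ ?_ (hP m)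
    · rintro _ ⟨p, p', rfl⟩
      obtain ⟨a, ha⟩ := (H146.bijective_smul_of_isLocalGenerator hgenD).2 (res M hDV p)
      obtain ⟨a', ha'⟩ := (H146.bijective_smul_of_isLocalGenerator hgenD').2 (res M' hDV p')
      exact ⟨a * a', P.res_both hM hM' hV hDV ha.symm ha'.symm⟩
    · exact ⟨0, by rw [res_zero, zero_smul]⟩
    · rintro m₁ m₂ - - ⟨v₁, h₁⟩ ⟨v₂, h₂⟩
      exact ⟨v₁ + v₂, by rw [res_add, h₁, h₂, add_smul]⟩
    · rintro m₁ - ⟨v₁, h₁⟩
      exact ⟨-v₁, by rw [H626.res_neg, h₁, neg_smul]⟩
  obtain ⟨v, hv⟩ := hall m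
  have hfu : IsUnit (resO hDV (f x)) := X.toRingedSpace.isUnit_res_basicOpen (f x)
  have hvu : v * u = resO hDV (f x) ^ j := by
    apply (H146.bijective_smul_of_isLocalGenerator (ht x)).1
    simp only
    rw [mul_smul, hu, ← hv, hm]
  have huu : IsUnit u := isUnit_of_mul_isUnit_right (hvu ▸ hfu.pow j)
  rw [← hu]
  exact isLocalGenerator_smul_of_isUnit (ht x) huu

end SecPairing

end Fermat.Agent.S27.H266
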