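import Mathlib
import Fermat.Agent.S27.H266.BridgeLoc
import Fermat.Agent.S27.H266.BridgeCore

/-!
# Row S27, block GRP, leaf BRIDGE (helper266), part 3: an atlas of pairings adds classes

Let `M`, `M'`, `M''` be modules with local generators on a scheme `X`, covered by affine opens
`V i`, each with a surjective pairing `P i : Γ(M, V i) × Γ(M', V i) → Γ(M'', V i)`, any two of
which are compatible on an affine open containing `V i ⊓ V j` (`SecPairing.Cross`).  Then
`[M''] = [M] + [M']` in the Čech Picard group (`class_add_of_atlas`).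
-/

set_option autoImplicit false

universe u

open CategoryTheory AlgebraicGeometry TopologicalSpace Opposite

namespace Fermat.Agent.S27.H266

open Fermat.Agent.S25 Fermat.Agent.S26 Fermat.Agent.S26.H266
open Fermat.Agent.S25.H626 (res resO res_res res_smul res_add res_sub res_zero resO_resO resO_mul
  resO_one resO_pow res_pow_smul res_id IsLocalGenerator HasLocalGenerators)

variable {X : Scheme.{u}} {M M' M'' : X.Modules}

namespace SecPairing

/-- Two pairings (over `V` and `V'`) are compatible: they are both restricted to a pairing over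
an affine open `W` with `V ⊓ V' ≤ W ≤ V, V'`. -/
def Cross {V V' : X.Opens} (P : SecPairing M M' M'' V) (Q : SecPairing M M' M'' V') : Prop :=
  ∃ (W : X.Opens) (_ : IsAffineOpen W) (hV : W ≤ V) (hV' : W ≤ V') (_ : V ⊓ V' ≤ W)
    (R : SecPairing M M' M'' W),
    (∀ s s', res M'' hV (P.B s s') = R.B (res M hV s) (res M' hV s')) ∧
      ∀ s s', res M'' hV' (Q.B s s') = R.B (res M hV' s) (res M' hV' s')

theorem Cross.refl {V : X.Opens} (P : SecPairing M M' M'' V) (hV : IsAffineOpen V) :
    P.Cross P :=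
  ⟨V, hV, le_rfl, le_rfl, inf_le_left, P, fun s s' => by rw [res_id, res_id, res_id],
    fun s s' => by rw [res_id, res_id, res_id]⟩

theorem Cross.symm {V V' : X.Opens} {P : SecPairing M M' M'' V} {Q : SecPairing M M' M'' V'}
    (h : P.Cross Q) : Q.Cross P := by
  obtain ⟨W, hW, hV, hV', hinf, R, h₁, h₂⟩ := h
  exact ⟨W, hW, hV', hV, inf_comm V V' ▸ hinf, R, h₂, h₁⟩

/-- **Localisation across two compatible pairings.** -/
theorem Cross.res_both {V V' : X.Opens} {P : SecPairing M M' M'' V}
    {Q : SecPairing M M' M'' V'} (h : P.Cross Q) (hM : HasLocalGenerators M)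
    (hM' : HasLocalGenerators M') {W₀ : X.Opens} (h₀ : W₀ ≤ V) (h₀' : W₀ ≤ V')
    {p : Γ(M, V)} {n : Γ(M, V')} {p' : Γ(M', V)} {n' : Γ(M', V')} {a a' : Γ(X, W₀)}
    (e : res M h₀ p = a • res M h₀' n) (e' : res M' h₀ p' = a' • res M' h₀' n') :
    res M'' h₀ (P.B p p') = (a * a') • res M'' h₀' (Q.B n n') := by
  obtain ⟨W, hW, hV, hV', hinf, R, h₁, h₂⟩ := h
  have hW₀ : W₀ ≤ W := (le_inf h₀ h₀').trans hinf
  have e1 : res M'' h₀ (P.B p p') = res M'' hW₀ (R.B (res M hV p) (res M' hV p')) := by
    rw [← h₁, res_res]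
  have e2 : res M'' h₀' (Q.B n n') = res M'' hW₀ (R.B (res M hV' n) (res M' hV' n')) := by
    rw [← h₂, res_res]
  rw [e1, e2]
  refine R.res_both hM hM' hW hW₀ ?_ ?_
  · rw [res_res, res_res]; exact e
  · rw [res_res, res_res]; exact e'

end SecPairing

/-- **An atlas of compatible surjective pairings adds classes.** -/
theorem class_add_of_atlas {ι : Type*} (hM : HasLocalGenerators M)
    (hM' : HasLocalGenerators M') (hM'' : HasLocalGenerators M'')
    (V : ι → X.Opens) (hV : ∀ i, IsAffineOpen (V i)) (hcov : ∀ x : X, ∃ i, x ∈ V i)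
    (P : ∀ i, SecPairing M M' M'' (V i)) (hP : ∀ i, (P i).IsSurj)
    (hX : ∀ i j, (P i).Cross (P j))
    {a a' a'' : Pic.cechPic.Pic X} (ha : IsClassOf M a) (ha' : IsClassOf M' a')
    (ha'' : IsClassOf M'' a'') : a'' = a + a' := by
  -- local data: a chart, a basic open, and global sections generating on it
  have key : ∀ x : X, ∃ (i : ι) (f : Γ(X, V i)) (n : Γ(M, V i)) (n' : Γ(M', V i)),
      x ∈ X.basicOpen f ∧
      IsLocalGenerator M (X.basicOpen f) (res M (X.basicOpen_le f) n) ∧
      IsLocalGenerator M' (X.basicOpen f) (res M' (X.basicOpen_le f) n') := by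
    intro x
    obtain ⟨i, hi⟩ := hcov x
    obtain ⟨U, hxU, t, ht⟩ := hM x
    obtain ⟨U', hxU', t', ht'⟩ := hM' x
    obtain ⟨f, hle, hx⟩ := (hV i).exists_basicOpen_le (V := U ⊓ U') ⟨x, hxU, hxU'⟩ hi
    obtain ⟨l, n, hn⟩ := H626.exists_res_eq_pow_smul hM (hV i) f (X.basicOpen_le f) rfl
      (res M (hle.trans inf_le_left) t)
    obtain ⟨l', n', hn'⟩ := H626.exists_res_eq_pow_smul hM' (hV i) f (X.basicOpen_le f) rfl
      (res M' (hle.trans inf_le_right) t')
    have hu : IsUnit (resO (X.basicOpen_le f) f) := X.toRingedSpace.isUnit_res_basicOpen f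
    refine ⟨i, f, n, n', hx, ?_, ?_⟩
    · rw [hn]
      exact isLocalGenerator_smul_of_isUnit (H146.isLocalGenerator_res ht _) (hu.pow l)
    · rw [hn']
      exact isLocalGenerator_smul_of_isUnit (H146.isLocalGenerator_res ht' _) (hu.pow l')
  choose i f n n' hx hn hn' using key
  have hUV : ∀ x, X.basicOpen (f x) ≤ V (i x) := fun x => X.basicOpen_le (f x)
  have hn'' : ∀ x, IsLocalGenerator M'' (X.basicOpen (f x))
      (res M'' (hUV x) ((P (i x)).B (n x) (n' x))) := fun x =>
    (P (i x)).isLocalGenerator hM hM' hM'' (hV _) (hP _) (hUV x) (hn x) (hn' x)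
  -- transition functions
  have hg : ∀ x y, ∃ r : Γ(X, X.basicOpen (f x) ⊓ X.basicOpen (f y)),
      res M (inf_le_left : X.basicOpen (f x) ⊓ X.basicOpen (f y) ≤ _) (res M (hUV x) (n x)) =
        r • res M (inf_le_right : X.basicOpen (f x) ⊓ X.basicOpen (f y) ≤ _)
          (res M (hUV y) (n y)) := fun x y => by
    obtain ⟨r, hr⟩ := (H146.bijective_smul_of_isLocalGenerator
      (H146.isLocalGenerator_res (hn y) inf_le_right)).2
        (res M (inf_le_left : X.basicOpen (f x) ⊓ X.basicOpen (f y) ≤ _) (res M (hUV x) (n x)))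
    exact ⟨r, hr.symm⟩
  have hg' : ∀ x y, ∃ r : Γ(X, X.basicOpen (f x) ⊓ X.basicOpen (f y)),
      res M' (inf_le_left : X.basicOpen (f x) ⊓ X.basicOpen (f y) ≤ _)
          (res M' (hUV x) (n' x)) =
        r • res M' (inf_le_right : X.basicOpen (f x) ⊓ X.basicOpen (f y) ≤ _)
          (res M' (hUV y) (n' y)) := fun x y => by
    obtain ⟨r, hr⟩ := (H146.bijective_smul_of_isLocalGenerator
      (H146.isLocalGenerator_res (hn' y) inf_le_right)).2
        (res M' (inf_le_left : X.basicOpen (f x) ⊓ X.basicOpen (f y) ≤ _)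
          (res M' (hUV x) (n' x)))
    exact ⟨r, hr.symm⟩
  choose g hg using hg
  choose g' hg' using hg'
  have hs : IsFrame M (fun x => X.basicOpen (f x)) g (fun x => res M (hUV x) (n x)) :=
    ⟨hn, hg⟩
  have hs' : IsFrame M' (fun x => X.basicOpen (f x)) g' (fun x => res M' (hUV x) (n' x)) :=
    ⟨hn', hg'⟩
  have hs'' : IsFrame M'' (fun x => X.basicOpen (f x)) (fun x y => g x y * g' x y)
      (fun x => res M'' (hUV x) ((P (i x)).B (n x) (n' x))) := by
    refine ⟨hn'', fun x y => ?_⟩
    have e := hg x y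
    have e' := hg' x y
    rw [res_res, res_res] at e e'
    rw [res_res, res_res]
    exact (hX (i x) (i y)).res_both hM hM' _ _ e e'
  exact class_add_of_frames hx hs hs' hs'' ha ha' ha''

/-- A chart of an atlas of pairings: an affine open with a surjective pairing. -/
structure PChart (M M' M'' : X.Modules) where
  /-- the affine open -/
  V : X.Opens
  isAffine : IsAffineOpen V
  /-- the pairing -/
  P : SecPairing M M' M'' V
  surj : P.IsSurj

/-- `class_add_of_atlas` for a family of bundled charts. -/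
theorem class_add_of_charts {ι : Type*} (hM : HasLocalGenerators M)
    (hM' : HasLocalGenerators M') (hM'' : HasLocalGenerators M'')
    (𝒞 : ι → PChart M M' M'') (hcov : ∀ x : X, ∃ i, x ∈ (𝒞 i).V)
    (hX : ∀ i j, (𝒞 i).P.Cross (𝒞 j).P)
    {a a' a'' : Pic.cechPic.Pic X} (ha : IsClassOf M a) (ha' : IsClassOf M' a')
    (ha'' : IsClassOf M'' a'') : a'' = a + a' :=
  class_add_of_atlas hM hM' hM'' (fun i => (𝒞 i).V) (fun i => (𝒞 i).isAffine) hcov
    (fun i => (𝒞 i).P) (fun i => (𝒞 i).surj) hX ha ha' ha''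

end Fermat.Agent.S27.H266
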