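import Mathlib
import Fermat.Agent.S27.Spec
import Fermat.Agent.S27.H266.BridgeAtlas
import Fermat.Agent.S25.H986.DictIsoMpr
import Fermat.Agent.S25.H205.Box

/-!
# Row S27, block GRP, leaf BRIDGE (helper266), part 4: `Corr` + `IsTensor` add classes

`class_add_of_corr` : if `L`, `L'`, `L''` on `C_A` correspond (S25 `Corr`) to gluing data
`G`, `G'`, `G''` with `IsTensor G G' G''`, then `[L''] = [L] + [L']` in the Čech Picard group of
`C_A`.  (For every `k`-algebra `A`.)

The bilinear maps `β₀`, `β₁`, `β₀₁` of the tensor structure are transported to pairings of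
sections over the preimages of `U₀`, `U₁`, `U₀ ⊓ U₁` (`pairingOf`), which form an atlas in the
sense of `BridgeAtlas.lean`.
-/

set_option autoImplicit false

universe u

open CategoryTheory CategoryTheory.Limits AlgebraicGeometry TopologicalSpace Opposite
  NeronModelInfra
open scoped TensorProduct

namespace Fermat.Agent.S27.H266

open Fermat.Agent.S25 Fermat.Agent.S26 Fermat.Agent.S26.H266 Fermat.Agent.S27
open Fermat.Agent.S25.H626 (res resO res_res res_smul res_add IsLocalGenerator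
  HasLocalGenerators)

noncomputable section

variable {k : Type u} [Field k] {C : Scheme.{u}} {c : C ⟶ Spec (CommRingCat.of k)}
  {A : Type u} [CommRing A] [Algebra k A]

section PairingOf

variable {L L' L'' : (pullback c (specStr k A)).Modules} {U : C.Opens}
  {B : Type u} [CommRing B] [Algebra k B]
  {N N' N'' : Type u} [AddCommGroup N] [Module (A ⊗[k] B) N] [AddCommGroup N']
  [Module (A ⊗[k] B) N'] [AddCommGroup N''] [Module (A ⊗[k] B) N'']

/-- The pairing of sections over the preimage of `U` transported from a bilinear map. -/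
def pairingOf (hU : IsAffineOpen U) (i : Γ(C, U) ≃+* B)
    (e : Γ(L, preimageOpen (c := c) A U) ≃+ N) (e' : Γ(L', preimageOpen (c := c) A U) ≃+ N')
    (e'' : Γ(L'', preimageOpen (c := c) A U) ≃+ N'')
    (he : IsSectionsIso A L U i e) (he' : IsSectionsIso A L' U i e')
    (he'' : IsSectionsIso A L'' U i e'')
    (β : N →ₗ[A ⊗[k] B] N' →ₗ[A ⊗[k] B] N'') :
    SecPairing L L' L'' (preimageOpen (c := c) A U) where
  B s s' := e''.symm (β (e s) (e' s'))
  add_left s t s' := by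
    rw [map_add, map_add, LinearMap.add_apply, map_add]
  add_right s s' t' := by
    rw [map_add, map_add, map_add]
  smul_left r s s' :=
    H986.transportHom_smul hU i e e'' he he'' (β.flip (e' s')) r s
  smul_right r s s' :=
    H986.transportHom_smul hU i e' e'' he' he'' (β (e s)) r s'

theorem pairingOf_B (hU : IsAffineOpen U) (i : Γ(C, U) ≃+* B)
    (e : Γ(L, preimageOpen (c := c) A U) ≃+ N) (e' : Γ(L', preimageOpen (c := c) A U) ≃+ N')
    (e'' : Γ(L'', preimageOpen (c := c) A U) ≃+ N'')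
    (he : IsSectionsIso A L U i e) (he' : IsSectionsIso A L' U i e')
    (he'' : IsSectionsIso A L'' U i e'')
    (β : N →ₗ[A ⊗[k] B] N' →ₗ[A ⊗[k] B] N'') (s : Γ(L, preimageOpen (c := c) A U))
    (s' : Γ(L', preimageOpen (c := c) A U)) :
    e'' ((pairingOf hU i e e' e'' he he' he'' β).B s s') = β (e s) (e' s') :=
  e''.apply_symm_apply _

theorem pairingOf_isSurj (hU : IsAffineOpen U) (i : Γ(C, U) ≃+* B)
    (e : Γ(L, preimageOpen (c := c) A U) ≃+ N) (e' : Γ(L', preimageOpen (c := c) A U) ≃+ N')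
    (e'' : Γ(L'', preimageOpen (c := c) A U) ≃+ N'')
    (he : IsSectionsIso A L U i e) (he' : IsSectionsIso A L' U i e')
    (he'' : IsSectionsIso A L'' U i e'')
    (β : N →ₗ[A ⊗[k] B] N' →ₗ[A ⊗[k] B] N'')
    (hβ : Function.Surjective (TensorProduct.lift β)) :
    (pairingOf hU i e e' e'' he he' he'' β).IsSurj := by
  intro m
  obtain ⟨z, hz⟩ := hβ (e'' m)
  have key : ∀ z : N ⊗[A ⊗[k] B] N', e''.symm (TensorProduct.lift β z) ∈
      AddSubgroup.closure {m : Γ(L'', preimageOpen (c := c) A U) |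
        ∃ p p', (pairingOf hU i e e' e'' he he' he'' β).B p p' = m} := by
    intro z
    induction z using TensorProduct.induction_on with
    | zero =>
      rw [map_zero, map_zero]
      exact AddSubgroup.zero_mem _
    | tmul x y =>
      apply AddSubgroup.subset_closure
      refine ⟨e.symm x, e'.symm y, ?_⟩
      show e''.symm (β (e (e.symm x)) (e' (e'.symm y))) = _
      rw [e.apply_symm_apply, e'.apply_symm_apply, TensorProduct.lift.tmul]
    | add z w hz hw =>
      rw [map_add, map_add]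
      exact AddSubgroup.add_mem _ hz hw
  have := key z
  rwa [hz, e''.symm_apply_apply] at this

end PairingOf

variable {ε : SchemeHomOver (𝟙 (Spec (CommRingCat.of k))) c}

/-- **BRIDGE.**  Tensor products of gluing data add the classes of the corresponding modules. -/
theorem class_add_of_corr (Ch : ChartOf c ε) {L L' L'' : (pullback c (specStr k A)).Modules}
    {G G' G'' : CurveGD k Ch.B₀ Ch.B₁ Ch.B₀₁ A} (hG : Corr Ch A L G) (hG' : Corr Ch A L' G')
    (hG'' : Corr Ch A L'' G'') (hT : IsTensor G G' G'')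
    {a a' a'' : Pic.cechPic.Pic (pullback c (specStr k A))} (ha : IsClassOf L a)
    (ha' : IsClassOf L' a') (ha'' : IsClassOf L'' a'') : a'' = a + a' := by
  obtain ⟨e₀, e₁, e₀₁, h₀, h₁, h₀₁, hr₀, hr₁⟩ := hG
  obtain ⟨e₀', e₁', e₀₁', h₀', h₁', h₀₁', hr₀', hr₁'⟩ := hG'
  obtain ⟨e₀'', e₁'', e₀₁'', h₀'', h₁'', h₀₁'', hr₀'', hr₁''⟩ := hG''
  obtain ⟨T⟩ := hT
  have hM := H626.hasLocalGenerators_of_isInvertible ha.isInvertible
  have hM' := H626.hasLocalGenerators_of_isInvertible ha'.isInvertible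
  have hM'' := H626.hasLocalGenerators_of_isInvertible ha''.isInvertible
  have hU₀₁ : IsAffineOpen (Ch.U₀ ⊓ Ch.U₁) := Ch.inf_eq₀ ▸ Ch.isAffine₀.basicOpen _
  have hP₀ : IsAffineOpen (preimageOpen (c := c) A Ch.U₀) :=
    H205.isAffineOpen_fst_preimage c (specStr k A) Ch.isAffine₀
  have hP₁ : IsAffineOpen (preimageOpen (c := c) A Ch.U₁) :=
    H205.isAffineOpen_fst_preimage c (specStr k A) Ch.isAffine₁
  have hP₀₁ : IsAffineOpen (preimageOpen (c := c) A (Ch.U₀ ⊓ Ch.U₁)) :=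
    H205.isAffineOpen_fst_preimage c (specStr k A) hU₀₁
  have l₀ : preimageOpen (c := c) A (Ch.U₀ ⊓ Ch.U₁) ≤ preimageOpen (c := c) A Ch.U₀ :=
    Scheme.Hom.preimage_mono _ inf_le_left
  have l₁ : preimageOpen (c := c) A (Ch.U₀ ⊓ Ch.U₁) ≤ preimageOpen (c := c) A Ch.U₁ :=
    Scheme.Hom.preimage_mono _ inf_le_right
  have hinf : preimageOpen (c := c) A Ch.U₀ ⊓ preimageOpen (c := c) A Ch.U₁ ≤
      preimageOpen (c := c) A (Ch.U₀ ⊓ Ch.U₁) := by
    rw [← Scheme.Hom.preimage_inf]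
  -- the three pairings
  let Q₀ := pairingOf Ch.isAffine₀ Ch.i₀ e₀ e₀' e₀'' h₀ h₀' h₀'' T.β₀
  let Q₁ := pairingOf Ch.isAffine₁ Ch.i₁ e₁ e₁' e₁'' h₁ h₁' h₁'' T.β₁
  let Q₀₁ := pairingOf hU₀₁ Ch.i₀₁ e₀₁ e₀₁' e₀₁'' h₀₁ h₀₁' h₀₁'' T.β₀₁
  have c₀ : ∀ s s', res L'' l₀ (Q₀.B s s') = Q₀₁.B (res L l₀ s) (res L' l₀ s') := by
    intro s s'
    apply e₀₁''.injective
    rw [pairingOf_B]
    refine (hr₀'' _).trans ?_
    rw [pairingOf_B, ← T.comm₀]
    exact congrArg₂ (fun x y => T.β₀₁ x y) (hr₀ s).symm (hr₀' s').symm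
  have c₁ : ∀ s s', res L'' l₁ (Q₁.B s s') = Q₀₁.B (res L l₁ s) (res L' l₁ s') := by
    intro s s'
    apply e₀₁''.injective
    rw [pairingOf_B]
    refine (hr₁'' _).trans ?_
    rw [pairingOf_B, ← T.comm₁]
    exact congrArg₂ (fun x y => T.β₀₁ x y) (hr₁ s).symm (hr₁' s').symm
  have hX : Q₀.Cross Q₁ := ⟨_, hP₀₁, l₀, l₁, hinf, Q₀₁, c₀, c₁⟩
  let C₀ : PChart L L' L'' := ⟨_, hP₀, Q₀, pairingOf_isSurj _ _ _ _ _ _ _ _ _ T.bijective₀.2⟩
  let C₁ : PChart L L' L'' := ⟨_, hP₁, Q₁, pairingOf_isSurj _ _ _ _ _ _ _ _ _ T.bijective₁.2⟩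
  refine class_add_of_charts hM hM' hM'' (fun b : Bool => cond b C₁ C₀) ?_ ?_ ha ha' ha''
  · intro x
    have hx : x ∈ preimageOpen (c := c) A Ch.U₀ ⊔ preimageOpen (c := c) A Ch.U₁ := by
      rw [H986.preimageOpen_cover (A := A) Ch]; trivial
    rcases hx with hx | hx
    · exact ⟨false, hx⟩
    · exact ⟨true, hx⟩
  · rintro (_ | _) (_ | _)
    · exact SecPairing.Cross.refl Q₀ hP₀
    · exact hX
    · exact hX.symm
    · exact SecPairing.Cross.refl Q₁ hP₁

end

end Fermat.Agent.S27.H266
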