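import Mathlib
import Fermat.Agent.S27.Spec
import Fermat.Agent.S27.H927.JGrp
import Fermat.Agent.S27.H325.TensorDegFam
import Fermat.Agent.S27.H266.BridgeCorr
import Fermat.Agent.S25.H505.DictGlue
import Fermat.Agent.S25.H505.DictSections
import Fermat.Agent.S25.H986.DictIsoMpr

/-!
# Row S27, leaf GRP (helper266): `grp : Stmt.Grp k`

The group law is helper927's formal law `H927.groupLaw` for the Čech Picard theory with the
DICT26 dictionary (`picDictCech`).  The tensor clause follows from the BRIDGE
(`class_add_of_corr`): for gluing data `G`, `G'` of the Poincaré bundles at `g`, `g'` and a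
tensor product `G''`, the datum `G''` is rigidifiable, hence the datum of sections of a
rigidified bundle `M''` (S25 `dictGlue`), whose class is the sum of the classes, i.e. the class
of the Poincaré bundle at `g * g'`; and `Corr` is invariant under isomorphisms (`corr_of_iso`).
-/

set_option autoImplicit false

universe u

open CategoryTheory CategoryTheory.Limits AlgebraicGeometry AlgebraicGeometry.RelPicard
  NeronModelInfra GoodReductionJacobian TopologicalSpace Opposite
open scoped TensorProduct

namespace Fermat.Agent.S27.H266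

open Fermat.Agent.S25 Fermat.Agent.S26 Fermat.Agent.S26.H266 Fermat.Agent.S27

noncomputable section

/-- The DICT26 dictionary of the Čech Picard theory, in helper927's format. -/
def picDictCech : H927.PicDict Pic.cechPic.{u} where
  Rep a L := IsClassOf L a
  exists_rep a := by
    obtain ⟨L, hL⟩ := exists_isClassOf a
    exact ⟨L, hL.isInvertible, hL⟩
  exists_class L hL := exists_isClassOf_of_isInvertible hL
  rep_congr a L L' h e := h.of_iso e.some
  rep_iso a L L' h h' := h.nonempty_iso h'
  rep_inj a a' L h h' := h.unique h'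
  rep_unit X := isClassOf_unit_zero X
  rep_pullback f a L h := h.pullback f

section Transport

variable {X : Scheme.{u}}

/-- The additive equivalence on sections induced by an isomorphism of modules. -/
def secAddEquiv {L L' : X.Modules} (φ : L ≅ L') (V : X.Opens) : Γ(L, V) ≃+ Γ(L', V) where
  toFun s := φ.hom.app V s
  invFun s := φ.inv.app V s
  left_inv s := by
    show (φ.hom.app V ≫ φ.inv.app V) s = s
    rw [← Scheme.Modules.Hom.comp_app, φ.hom_inv_id, Scheme.Modules.Hom.id_app]
    rfl
  right_inv s := by
    show (φ.inv.app V ≫ φ.hom.app V) s = s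
    rw [← Scheme.Modules.Hom.comp_app, φ.inv_hom_id, Scheme.Modules.Hom.id_app]
    rfl
  map_add' s t := map_add _ s t

@[simp] theorem secAddEquiv_symm_apply {L L' : X.Modules} (φ : L ≅ L') (V : X.Opens)
    (s : Γ(L', V)) : (secAddEquiv φ V).symm s = φ.inv.app V s := rfl

end Transport

variable {k : Type u} [Field k] {C : Scheme.{u}} {c : C ⟶ Spec (CommRingCat.of k)}
  {ε : SchemeHomOver (𝟙 (Spec (CommRingCat.of k))) c}

/-- `Corr` is invariant under isomorphisms of the module. -/
theorem corr_of_iso (Ch : ChartOf c ε) {A : Type u} [CommRing A] [Algebra k A]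
    {L L' : (pullback c (specStr k A)).Modules} (φ : L ≅ L')
    {G : CurveGD k Ch.B₀ Ch.B₁ Ch.B₀₁ A} (h : Corr Ch A L G) : Corr Ch A L' G := by
  obtain ⟨e₀, e₁, e₀₁, h₀, h₁, h₀₁, hr₀, hr₁⟩ := h
  refine ⟨(secAddEquiv φ _).symm.trans e₀, (secAddEquiv φ _).symm.trans e₁,
    (secAddEquiv φ _).symm.trans e₀₁, ⟨fun a s => ?_, fun f s => ?_⟩,
    ⟨fun a s => ?_, fun f s => ?_⟩, ⟨fun a s => ?_, fun f s => ?_⟩, fun s => ?_, fun s => ?_⟩
  · simp only [AddEquiv.trans_apply, secAddEquiv_symm_apply, Scheme.Modules.Hom.app_smul]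
    exact h₀.1 a _
  · simp only [AddEquiv.trans_apply, secAddEquiv_symm_apply, Scheme.Modules.Hom.app_smul]
    exact h₀.2 f _
  · simp only [AddEquiv.trans_apply, secAddEquiv_symm_apply, Scheme.Modules.Hom.app_smul]
    exact h₁.1 a _
  · simp only [AddEquiv.trans_apply, secAddEquiv_symm_apply, Scheme.Modules.Hom.app_smul]
    exact h₁.2 f _
  · simp only [AddEquiv.trans_apply, secAddEquiv_symm_apply, Scheme.Modules.Hom.app_smul]
    exact h₀₁.1 a _
  · simp only [AddEquiv.trans_apply, secAddEquiv_symm_apply, Scheme.Modules.Hom.app_smul]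
    exact h₀₁.2 f _
  · simp only [AddEquiv.trans_apply, secAddEquiv_symm_apply]
    rw [← hr₀]
    congr 1
    exact H626.app_res φ.inv _ s
  · simp only [AddEquiv.trans_apply, secAddEquiv_symm_apply]
    rw [← hr₁]
    congr 1
    exact H626.app_res φ.inv _ s

/-- **GRP.**  The Jacobian of a curve carries a commutative group law which on affine test
schemes is the tensor product of gluing data. -/
theorem grp (k : Type u) [Field k] : Stmt.Grp k := by
  intro _ C c _ _ _ ε Ch D hrep
  refine ⟨H927.groupLaw picDictCech hrep, H927.groupLaw_isCommutative picDictCech hrep, ?_⟩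
  intro A _ _ g g' G G' G'' hG hG' hT
  have hR : ∀ (g : SchemeHomOver (specStr k A) D.toBase)
      (G : CurveGD k Ch.B₀ Ch.B₁ Ch.B₀₁ A),
      Corr Ch A (hrep.poincare.pullbackAlong g).L G → G.Rigidifiable Ch.e := by
    intro g G hG
    obtain ⟨G₁, hG₁, hR₁⟩ := H505.dictSections Ch A (hrep.poincare.pullbackAlong g)
    have hiso : G₁.IsIso G := (H986.dictIso Ch A _ _ G₁ G hG₁ hG).mp ⟨Iso.refl _⟩
    exact H265.rigidifiable_of_isIso hiso hR₁
  have hR'' : G''.Rigidifiable Ch.e :=
    H325.rigidifiable_of_isTensor Ch.e hT (hR g G hG) (hR g' G' hG')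
  obtain ⟨M'', hM''⟩ := H505.dictGlue Ch A G'' hR''
  have hcl : picDictCech.cls M''.L M''.isInvertible =
      H927.pt picDictCech hrep ((H927.groupLaw picDictCech hrep).mul (specStr k A) g g') := by
    rw [H927.pt_mul]
    exact class_add_of_corr Ch hG hG' hM'' hT (picDictCech.rep_cls _ _)
      (picDictCech.rep_cls _ _) (picDictCech.rep_cls _ _)
  have hiso := (picDictCech.cls_eq_iff _ _).1 hcl
  exact corr_of_iso Ch hiso.some hM''

end

end Fermat.Agent.S27.H266
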